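import Fermat.Agent.LT.A2.H54.LocFinSpec

/-!
# Row LT, tower A2, leaf A2.03.1.1.06.13 `LF54.LeafBorelOp` (helper64)

OFF-MAIN.  `leafBorelOp64 : LF54.LeafBorelOp` VERBATIM, unconditional.

The left rules of `n(x)` and `t(a)` and `rOp 1 = id` for the explicit Bruhat formulas `LF54.rOp`,
over ANY normed field `k` (`borelOpP64`): pure algebra.  Used: `ψ` additive and unitary
(`ψ 0 = 1`), `η` multiplicative with values `± 1` (`η 1 = 1`, `η a⁻¹ = η a`),
`Q (a ξ) = a² Q ξ`, `B (a ξ, y) = a B (ξ, y)`, and `∫ c f = c ∫ f` (no integrability needed).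
`Ctx.disc`, `Ctx.haar`, `IsSB Φ`, `EtaCert.eta_norm / eta_cont / w2 / gauss_eta` are not used.
-/

set_option autoImplicit false

open IsDedekindDomain NumberField MeasureTheory

noncomputable section

namespace Fermat.Agent.LT.A2.H64

open Fermat.Agent.LT.A2 Fermat.Agent.LT.A2.WX467 Fermat.Agent.LT.A2.LF54

section General

variable {k : Type} [NormedField k]

theorem psi_zero64 {ψ : k → ℂ} (h : IsCharL ψ) : ψ 0 = 1 := by
  obtain ⟨-, hadd, hnorm, -⟩ := h
  have h0 : ψ 0 = ψ 0 * ψ 0 := by simpa using hadd 0 0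
  have hne : ψ 0 ≠ 0 := by
    intro h
    have := hnorm 0
    rw [h, norm_zero] at this
    exact zero_ne_one this
  have h1 : ψ 0 * 1 = ψ 0 * ψ 0 := by rw [mul_one]; exact h0
  exact (mul_left_cancel₀ hne h1).symm

theorem eta_one64 {η : k → ℂ} (hmul : ∀ a b : k, a ≠ 0 → b ≠ 0 → η (a * b) = η a * η b)
    (hsq : ∀ a : k, a ≠ 0 → η a = 1 ∨ η a = -1) : η 1 = 1 := by
  have h1 := hmul 1 1 one_ne_zero one_ne_zero
  rw [mul_one] at h1
  rcases hsq 1 one_ne_zero with h | h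
  · exact h
  · rw [h] at h1
    norm_num at h1

theorem eta_inv64 {η : k → ℂ} (hmul : ∀ a b : k, a ≠ 0 → b ≠ 0 → η (a * b) = η a * η b)
    (hsq : ∀ a : k, a ≠ 0 → η a = 1 ∨ η a = -1) {a : k} (ha : a ≠ 0) : η a⁻¹ = η a := by
  have h1 := hmul a a⁻¹ ha (inv_ne_zero ha)
  rw [mul_inv_cancel₀ ha, eta_one64 hmul hsq] at h1
  rcases hsq a ha with h | h
  · rw [h, one_mul] at h1
    rw [h, ← h1]
  · rw [h] at h1 ⊢
    linear_combination h1

theorem qfL_smul64 (t n a : k) (ξ : k × k) : qfL t n (a • ξ) = a ^ 2 * qfL t n ξ := by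
  simp only [qfL, Prod.smul_fst, Prod.smul_snd, smul_eq_mul]
  ring

theorem bfL_smul64 (t n a : k) (ξ y : k × k) : bfL t n (a • ξ) y = a * bfL t n ξ y := by
  simp only [bfL, qfL, Prod.smul_fst, Prod.smul_snd, smul_eq_mul, Prod.fst_add, Prod.snd_add]
  ring

theorem intL_const_mul64 (μ : @Measure k (borel k)) (c : ℂ) (f : k × k → ℂ) :
    intL μ (fun y => c * f y) = c * intL μ f := by
  unfold intL
  exact integral_const_mul c f

/-- **The left rules of the upper triangular group**, over any normed field. -/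
theorem borelOpP64 {t n : k} {ψ : k → ℂ} {μ : @Measure k (borel k)} {γ : ℂ} {η : k → ℂ}
    (hψ : IsCharL ψ) (hmul : ∀ a b : k, a ≠ 0 → b ≠ 0 → η (a * b) = η a * η b)
    (hsq : ∀ a : k, a ≠ 0 → η a = 1 ∨ η a = -1) : BorelOpP t n ψ μ γ η := by
  have hadd := hψ.2.1
  refine ⟨?_, ?_, ?_⟩
  · -- `rOp 1 = id`
    intro Φ _
    funext ξ
    have h10 : (1 : Matrix (Fin 2) (Fin 2) k) 1 0 = 0 := by simp
    have h00 : (1 : Matrix (Fin 2) (Fin 2) k) 0 0 = 1 := by simp
    have h01 : (1 : Matrix (Fin 2) (Fin 2) k) 0 1 = 0 := by simp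
    unfold rOp
    rw [if_pos h10, h00, h01, eta_one64 hmul hsq, norm_one, mul_zero, zero_mul, psi_zero64 hψ,
      one_smul]
    simp
  · -- `n(x)`
    intro x h hdet Φ _ ξ
    have e10 : (!![1, x; 0, 1] * h) 1 0 = h 1 0 := by
      simp [Matrix.mul_apply, Fin.sum_univ_two]
    have e00 : (!![1, x; 0, 1] * h) 0 0 = h 0 0 + x * h 1 0 := by
      simp [Matrix.mul_apply, Fin.sum_univ_two]
    have e01 : (!![1, x; 0, 1] * h) 0 1 = h 0 1 + x * h 1 1 := by
      simp [Matrix.mul_apply, Fin.sum_univ_two]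
    have e11 : (!![1, x; 0, 1] * h) 1 1 = h 1 1 := by
      simp [Matrix.mul_apply, Fin.sum_univ_two]
    rw [Matrix.det_fin_two] at hdet
    unfold rOp
    rw [e10, e00, e01, e11]
    by_cases hc : h 1 0 = 0
    · rw [if_pos hc, if_pos hc]
      rw [hc, mul_zero, sub_zero] at hdet
      have harg : (h 0 0 + x * 0) * (h 0 1 + x * h 1 1) * qfL t n ξ
          = x * qfL t n ξ + h 0 0 * h 0 1 * qfL t n ξ := by
        have : (h 0 0 + x * 0) * (h 0 1 + x * h 1 1) * qfL t n ξ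
            = x * (h 0 0 * h 1 1) * qfL t n ξ + h 0 0 * h 0 1 * qfL t n ξ := by ring
        rw [this, hdet, mul_one]
      rw [hc, harg, hadd, mul_zero, add_zero]
      ring
    · rw [if_neg hc, if_neg hc]
      have hfun : (fun y : k × k =>
          ψ (((h 0 0 + x * h 1 0) * qfL t n ξ - bfL t n ξ y + h 1 1 * qfL t n y) / h 1 0) * Φ y)
          = fun y => ψ (x * qfL t n ξ) *
              (ψ ((h 0 0 * qfL t n ξ - bfL t n ξ y + h 1 1 * qfL t n y) / h 1 0) * Φ y) := by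
        funext y
        have : ((h 0 0 + x * h 1 0) * qfL t n ξ - bfL t n ξ y + h 1 1 * qfL t n y) / h 1 0
            = x * qfL t n ξ + (h 0 0 * qfL t n ξ - bfL t n ξ y + h 1 1 * qfL t n y) / h 1 0 := by
          field_simp
          ring
        rw [this, hadd, mul_assoc]
      rw [hfun, intL_const_mul64]
      ring
  · -- `t(a)`
    intro a ha h hdet Φ _ ξ
    have e10 : (!![a, 0; 0, a⁻¹] * h) 1 0 = a⁻¹ * h 1 0 := by
      simp [Matrix.mul_apply, Fin.sum_univ_two]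
    have e00 : (!![a, 0; 0, a⁻¹] * h) 0 0 = a * h 0 0 := by
      simp [Matrix.mul_apply, Fin.sum_univ_two]
    have e01 : (!![a, 0; 0, a⁻¹] * h) 0 1 = a * h 0 1 := by
      simp [Matrix.mul_apply, Fin.sum_univ_two]
    have e11 : (!![a, 0; 0, a⁻¹] * h) 1 1 = a⁻¹ * h 1 1 := by
      simp [Matrix.mul_apply, Fin.sum_univ_two]
    rw [Matrix.det_fin_two] at hdet
    unfold rOp
    rw [e10, e00, e01, e11]
    by_cases hc : h 1 0 = 0
    · have hc' : a⁻¹ * h 1 0 = 0 := by rw [hc, mul_zero]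
      rw [if_pos hc', if_pos hc]
      rw [hc, mul_zero, sub_zero] at hdet
      have h00 : h 0 0 ≠ 0 := by
        intro h0
        rw [h0, zero_mul] at hdet
        exact zero_ne_one hdet
      rw [hmul a (h 0 0) ha h00, norm_mul, qfL_smul64, smul_smul]
      have harg : a * h 0 0 * (a * h 0 1) * qfL t n ξ = h 0 0 * h 0 1 * (a ^ 2 * qfL t n ξ) := by
        ring
      have hsm : (a * h 0 0) • ξ = (h 0 0 * a) • ξ := by rw [mul_comm]
      rw [harg, hsm]
      push_cast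
      ring
    · have hc' : a⁻¹ * h 1 0 ≠ 0 := mul_ne_zero (inv_ne_zero ha) hc
      rw [if_neg hc', if_neg hc]
      have hfun : (fun y : k × k =>
          ψ ((a * h 0 0 * qfL t n ξ - bfL t n ξ y + a⁻¹ * h 1 1 * qfL t n y) / (a⁻¹ * h 1 0))
            * Φ y)
          = fun y => ψ ((h 0 0 * qfL t n (a • ξ) - bfL t n (a • ξ) y + h 1 1 * qfL t n y)
              / h 1 0) * Φ y := by
        funext y
        have : (a * h 0 0 * qfL t n ξ - bfL t n ξ y + a⁻¹ * h 1 1 * qfL t n y) / (a⁻¹ * h 1 0)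
            = (h 0 0 * qfL t n (a • ξ) - bfL t n (a • ξ) y + h 1 1 * qfL t n y) / h 1 0 := by
          rw [qfL_smul64, bfL_smul64]
          field_simp
        rw [this]
      have hη : η (-(a⁻¹ * h 1 0)) = η a * η (-(h 1 0)) := by
        have : -(a⁻¹ * h 1 0) = a⁻¹ * (-(h 1 0)) := by ring
        rw [this, hmul a⁻¹ (-(h 1 0)) (inv_ne_zero ha) (neg_ne_zero.2 hc), eta_inv64 hmul hsq ha]
      have hnorm : ((‖a⁻¹ * h 1 0‖⁻¹ : ℝ) : ℂ) = ((‖a‖ : ℝ) : ℂ) * ((‖h 1 0‖⁻¹ : ℝ) : ℂ) := by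
        rw [norm_mul, norm_inv, mul_inv, inv_inv]
        push_cast
        ring
      rw [hfun, hη, hnorm]
      ring

end General

/-- **Leaf A2.03.1.1.06.13 `LF54.LeafBorelOp`.** -/
theorem leafBorelOp64 : LF54.LeafBorelOp := by
  intro K _ _ v t n ψ μ c G γ η hctx hη
  exact borelOpP64 hctx.char hη.eta_mul hη.eta_sq

end Fermat.Agent.LT.A2.H64

end
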