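import Fermat.Agent.LT.A2.H64.TorusLocal
import Fermat.Agent.LT.A2.H467.DataSpec

/-!
# Row LT, tower A2, leaf A2.03.1.1.05 `WX467.InducedC` (helper64)

OFF-MAIN.  `inducedC64 : WX467.InducedC` VERBATIM, unconditional.

For a level `𝔫 ≠ ⊥` outside which the places are good (`GoodArith`), the eigensystem with the
induced data of `χT` exists.  At a place `v ∤ 𝔫`:

* if there is a pair `(m₁, m₂)` of integral elements of `T(K_v)` with determinant a uniformiser,
  inequivalent modulo `T(𝒪_v)`, put `a = χT m₁ + χT m₂`, `b = χT m₁ χT m₂` for a chosen pair.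
  Independence of the pair: there are AT MOST TWO classes modulo `T(𝒪_v)` (`three64`, pure
  algebra in coordinates: no Hensel, no discriminant), and `χT` is trivial on `T(𝒪_v)`
  (`good_char`);
* otherwise, if there is a scalar uniformiser `z₀`, put `a = 0`, `b = - χT z₀`; two scalar
  uniformisers differ by a scalar unit, which lies in `T(𝒪_v)`.

Only `good_int` (integrality of `t`, `n`) and `good_char` of `GoodArith` are used.
-/

set_option autoImplicit false

open IsDedekindDomain NumberField AutomorphicForm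
open scoped WithZero

noncomputable section

namespace Fermat.Agent.LT.A2.H64

open Fermat.Agent.LT.H556 Fermat.Agent.LT.A2

variable {K : Type} [Field K] [NumberField K]

/-! ## 1. Components of adeles and of `GL₂(𝔸_K)` -/

/-- The projection of the adele ring to the completion at the finite place `v`. -/
def pf64 (v : HeightOneSpectrum (𝓞 K)) : A0.Adl K →+* v.adicCompletion K where
  toFun x := x.2 v
  map_one' := rfl
  map_mul' _ _ := rfl
  map_zero' := rfl
  map_add' _ _ := rfl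

/-- The projection of the adele ring to the completion at the infinite place `w`. -/
def pi64 (w : InfinitePlace K) : A0.Adl K →+* w.Completion where
  toFun x := x.1 w
  map_one' := rfl
  map_mul' _ _ := rfl
  map_zero' := rfl
  map_add' _ _ := rfl

theorem adl_ext64 {x y : A0.Adl K} (h1 : ∀ w : InfinitePlace K, x.1 w = y.1 w)
    (h2 : ∀ v : HeightOneSpectrum (𝓞 K), x.2 v = y.2 v) : x = y := by
  refine Prod.ext (funext h1) ?_
  exact FiniteAdeleRing.ext (K := K) h2

/-- The matrix of `g` at the infinite place `w` (in the completion). -/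
def infM64 (w : InfinitePlace K) (g : A0.G K) : Matrix (Fin 2) (Fin 2) w.Completion :=
  (g : Matrix (Fin 2) (Fin 2) (A0.Adl K)).map (pi64 w)

theorem finComp_eq_map64 (v : HeightOneSpectrum (𝓞 K)) (g : A0.G K) :
    A0.finComp v g = (g : Matrix (Fin 2) (Fin 2) (A0.Adl K)).map (pf64 v) := rfl

theorem finComp_mul64 (v : HeightOneSpectrum (𝓞 K)) (g h : A0.G K) :
    A0.finComp v (g * h) = A0.finComp v g * A0.finComp v h := by
  rw [finComp_eq_map64, finComp_eq_map64, finComp_eq_map64, Units.val_mul, Matrix.map_mul]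

theorem finComp_one64 (v : HeightOneSpectrum (𝓞 K)) : A0.finComp v (1 : A0.G K) = 1 := by
  rw [finComp_eq_map64, Units.val_one, Matrix.map_one _ (map_zero _) (map_one _)]

theorem finComp_inv64 (v : HeightOneSpectrum (𝓞 K)) (g : A0.G K) :
    A0.finComp v g⁻¹ = (A0.finComp v g)⁻¹ := by
  symm
  apply Matrix.inv_eq_right_inv
  rw [← finComp_mul64, mul_inv_cancel, finComp_one64]

theorem infM_mul64 (w : InfinitePlace K) (g h : A0.G K) :
    infM64 w (g * h) = infM64 w g * infM64 w h := by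
  rw [infM64, infM64, infM64, Units.val_mul, Matrix.map_mul]

theorem infM_one64 (w : InfinitePlace K) : infM64 w (1 : A0.G K) = 1 := by
  rw [infM64, Units.val_one, Matrix.map_one _ (map_zero _) (map_one _)]

theorem trivAtInf_iff64 (w : InfinitePlace K) (g : A0.G K) :
    A0.TrivAtInf w g ↔ infM64 w g = 1 := by
  constructor
  · intro h
    exact Matrix.ext fun i j => h i j
  · intro h i j
    exact congrFun (congrFun h i) j

theorem trivAtInf_mul64 {w : InfinitePlace K} {g h : A0.G K} (hg : A0.TrivAtInf w g)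
    (hh : A0.TrivAtInf w h) : A0.TrivAtInf w (g * h) := by
  rw [trivAtInf_iff64] at hg hh ⊢
  rw [infM_mul64, hg, hh, one_mul]

theorem trivAtInf_inv64 {w : InfinitePlace K} {g : A0.G K} (hg : A0.TrivAtInf w g) :
    A0.TrivAtInf w g⁻¹ := by
  rw [trivAtInf_iff64] at hg ⊢
  have h := infM_mul64 w g⁻¹ g
  rw [inv_mul_cancel, infM_one64, hg, mul_one] at h
  exact h.symm

theorem trivAtFin_mul64 {v : HeightOneSpectrum (𝓞 K)} {g h : A0.G K} (hg : A0.TrivAtFin v g)
    (hh : A0.TrivAtFin v h) : A0.TrivAtFin v (g * h) := by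
  unfold A0.TrivAtFin at hg hh ⊢
  rw [finComp_mul64, hg, hh, one_mul]

theorem trivAtFin_inv64 {v : HeightOneSpectrum (𝓞 K)} {g : A0.G K} (hg : A0.TrivAtFin v g) :
    A0.TrivAtFin v g⁻¹ := by
  unfold A0.TrivAtFin at hg ⊢
  rw [finComp_inv64, hg, inv_one]

theorem isLocalAtFin_mul64 {v : HeightOneSpectrum (𝓞 K)} {g h : A0.G K}
    (hg : A0.IsLocalAtFin v g) (hh : A0.IsLocalAtFin v h) : A0.IsLocalAtFin v (g * h) :=
  ⟨fun w => trivAtInf_mul64 (hg.1 w) (hh.1 w),
    fun v' hv' => trivAtFin_mul64 (hg.2 v' hv') (hh.2 v' hv')⟩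

theorem isLocalAtFin_inv64 {v : HeightOneSpectrum (𝓞 K)} {g : A0.G K}
    (hg : A0.IsLocalAtFin v g) : A0.IsLocalAtFin v g⁻¹ :=
  ⟨fun w => trivAtInf_inv64 (hg.1 w), fun v' hv' => trivAtFin_inv64 (hg.2 v' hv')⟩

theorem isIntegralAt_iff64 (v : HeightOneSpectrum (𝓞 K)) (g : A0.G K) :
    A0.IsIntegralAt v g ↔ IntM64 (Valued.v : Valuation (v.adicCompletion K) ℤᵐ⁰)
      (A0.finComp v g) := by
  unfold A0.IsIntegralAt IntM64
  refine forall_congr' fun i => forall_congr' fun j => ?_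
  exact HeightOneSpectrum.mem_adicCompletionIntegers _ _ _

/-! ## 2. The torus -/

theorem inTorus_mul64 {t n : K} {m m' : A0.G K} (h : InTorus t n m) (h' : InTorus t n m') :
    InTorus t n (m * m') := by
  obtain ⟨a, b, hab⟩ := h
  obtain ⟨c, d, hcd⟩ := h'
  exact ⟨_, _, by rw [Units.val_mul, hab, hcd, torMat_mul64]⟩

theorem inTorus_inv64 {t n : K} {m : A0.G K} (h : InTorus t n m) : InTorus t n m⁻¹ := by
  obtain ⟨a, b, hab⟩ := h
  have hdet : (m : Matrix (Fin 2) (Fin 2) (A0.Adl K)).det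
      = a ^ 2 + algebraMap K (A0.Adl K) t * a * b + algebraMap K (A0.Adl K) n * b ^ 2 := by
    rw [hab]
    simp only [torMat, Matrix.det_fin_two_of]
    ring
  have hu : IsUnit (m : Matrix (Fin 2) (Fin 2) (A0.Adl K)).det :=
    (Matrix.isUnit_iff_isUnit_det _).1 m.isUnit
  obtain ⟨δ, hδ⟩ := hu
  have hδ' : (a ^ 2 + algebraMap K (A0.Adl K) t * a * b + algebraMap K (A0.Adl K) n * b ^ 2)
      * ((δ⁻¹ : (A0.Adl K)ˣ) : A0.Adl K) = 1 := by
    rw [← hdet, ← hδ]
    exact δ.mul_inv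
  refine ⟨(a + algebraMap K (A0.Adl K) t * b) * ((δ⁻¹ : (A0.Adl K)ˣ) : A0.Adl K),
    -b * ((δ⁻¹ : (A0.Adl K)ˣ) : A0.Adl K), ?_⟩
  apply Units.inv_eq_of_mul_eq_one_right
  rw [hab, torMat_mul64]
  have h1 : a * ((a + algebraMap K (A0.Adl K) t * b) * ((δ⁻¹ : (A0.Adl K)ˣ) : A0.Adl K))
      - algebraMap K (A0.Adl K) n * (b * (-b * ((δ⁻¹ : (A0.Adl K)ˣ) : A0.Adl K))) = 1 := by
    rw [← hδ']
    ring
  have h2 : a * (-b * ((δ⁻¹ : (A0.Adl K)ˣ) : A0.Adl K))
      + b * ((a + algebraMap K (A0.Adl K) t * b) * ((δ⁻¹ : (A0.Adl K)ˣ) : A0.Adl K))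
      + algebraMap K (A0.Adl K) t * (b * (-b * ((δ⁻¹ : (A0.Adl K)ˣ) : A0.Adl K))) = 0 := by
    ring
  rw [h1, h2, torMat_one64]

/-- The local matrix of an element of the torus. -/
theorem finComp_torus64 {t n : K} {m : A0.G K} {a b : A0.Adl K}
    (hab : (m : Matrix (Fin 2) (Fin 2) (A0.Adl K))
      = torMat (algebraMap K (A0.Adl K) t) (algebraMap K (A0.Adl K) n) a b)
    (v : HeightOneSpectrum (𝓞 K)) :
    A0.finComp v m = torMat (algebraMap K (v.adicCompletion K) t)
      (algebraMap K (v.adicCompletion K) n) (a.2 v) (b.2 v) := by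
  rw [finComp_eq_map64, hab]
  ext i j
  fin_cases i <;> fin_cases j <;> simp [torMat, pf64] <;> rfl

/-- A GOOD element at `v`: an integral element of `T(K_v)` with determinant a uniformiser. -/
structure Good64 (t n : K) (v : HeightOneSpectrum (𝓞 K)) (m : A0.G K) : Prop where
  tor : InTorus t n m
  loc : A0.IsLocalAtFin v m
  int : A0.IsIntegralAt v m
  det : Valued.v (A0.finComp v m).det = WithZero.exp (-1 : ℤ)

/-- Local coordinates of a good element. -/
theorem Good64.coords {t n : K} {v : HeightOneSpectrum (𝓞 K)} {m : A0.G K}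
    (h : Good64 t n v m) :
    ∃ a b : v.adicCompletion K,
      A0.finComp v m = torMat (algebraMap K (v.adicCompletion K) t)
        (algebraMap K (v.adicCompletion K) n) a b ∧
      Valued.v a ≤ 1 ∧ Valued.v b ≤ 1 ∧
      Valued.v (nm64 (algebraMap K (v.adicCompletion K) t)
        (algebraMap K (v.adicCompletion K) n) a b) = WithZero.exp (-1 : ℤ) := by
  obtain ⟨a, b, hab⟩ := h.tor
  have hf := finComp_torus64 hab v
  have hint := (isIntegralAt_iff64 v m).1 h.int
  refine ⟨a.2 v, b.2 v, hf, ?_, ?_, ?_⟩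
  · have := hint 0 0
    rw [hf] at this
    simpa [torMat] using this
  · have := hint 1 0
    rw [hf] at this
    simpa [torMat] using this
  · rw [← det_torMat64, ← hf]
    exact h.det

/-- The relation: `x⁻¹ y` is integral at `v`. -/
theorem rel_iff_local64 (v : HeightOneSpectrum (𝓞 K)) (x y : A0.G K) :
    A0.IsIntegralAt v (x⁻¹ * y) ↔
      IntM64 (Valued.v : Valuation (v.adicCompletion K) ℤᵐ⁰)
        ((A0.finComp v x)⁻¹ * A0.finComp v y) := by
  rw [isIntegralAt_iff64, finComp_mul64, finComp_inv64]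

section Classes

variable {t n : K} {v : HeightOneSpectrum (𝓞 K)}

/-- Symmetry of the relation on good elements. -/
theorem rel_symm_good64
    (ht : Valued.v (algebraMap K (v.adicCompletion K) t) ≤ 1)
    (hn : Valued.v (algebraMap K (v.adicCompletion K) n) ≤ 1)
    {x y : A0.G K} (hx : Good64 t n v x) (hy : Good64 t n v y)
    (h : A0.IsIntegralAt v (x⁻¹ * y)) : A0.IsIntegralAt v (y⁻¹ * x) := by
  obtain ⟨a, b, hab, -, -, hN⟩ := hx.coords
  obtain ⟨c, d, hcd, -, -, hN'⟩ := hy.coords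
  rw [rel_iff_local64, hab, hcd] at h
  rw [rel_iff_local64, hab, hcd]
  exact rel_symm64 _ ht hn hN hN' h

/-- Transitivity of the relation. -/
theorem rel_trans64 {x y z : A0.G K} (h1 : A0.IsIntegralAt v (x⁻¹ * y))
    (h2 : A0.IsIntegralAt v (y⁻¹ * z)) : A0.IsIntegralAt v (x⁻¹ * z) := by
  have hxz : x⁻¹ * z = (x⁻¹ * y) * (y⁻¹ * z) := by group
  rw [hxz, isIntegralAt_iff64, finComp_mul64]
  exact intM_mul64 _ ((isIntegralAt_iff64 v _).1 h1) ((isIntegralAt_iff64 v _).1 h2)

/-- At most two classes. -/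
theorem rel_three64
    (ht : Valued.v (algebraMap K (v.adicCompletion K) t) ≤ 1)
    (hn : Valued.v (algebraMap K (v.adicCompletion K) n) ≤ 1)
    {x y z : A0.G K} (hx : Good64 t n v x) (hy : Good64 t n v y) (hz : Good64 t n v z)
    (h1 : ¬ A0.IsIntegralAt v (x⁻¹ * y)) (h2 : ¬ A0.IsIntegralAt v (x⁻¹ * z)) :
    A0.IsIntegralAt v (y⁻¹ * z) := by
  obtain ⟨a, b, hab, ha, hb, hN⟩ := hx.coords
  obtain ⟨c, d, hcd, hc, hd, hN'⟩ := hy.coords
  obtain ⟨e, f, hef, he, hf, hN''⟩ := hz.coords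
  rw [rel_iff_local64, hab, hcd] at h1
  rw [rel_iff_local64, hab, hef] at h2
  rw [rel_iff_local64, hcd, hef]
  exact three64 _ ht hn ha hb hc hd he hf hN hN' hN'' h1 h2

/-- Equivalent good elements have the same value of `χT`. -/
theorem chi_eq_of_rel64 {χT : A0.G K → ℂ} (hχ : IsTorusChar t n χT)
    (ht : Valued.v (algebraMap K (v.adicCompletion K) t) ≤ 1)
    (hn : Valued.v (algebraMap K (v.adicCompletion K) n) ≤ 1)
    (hchar : ∀ κ : A0.G K, WL.InTorusIntAt t n v κ → χT κ = 1)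
    {x y : A0.G K} (hx : Good64 t n v x) (hy : Good64 t n v y)
    (h : A0.IsIntegralAt v (x⁻¹ * y)) : χT y = χT x := by
  have hκ : WL.InTorusIntAt t n v (x⁻¹ * y) := by
    refine ⟨inTorus_mul64 (inTorus_inv64 hx.tor) hy.tor,
      isLocalAtFin_mul64 (isLocalAtFin_inv64 hx.loc) hy.loc, h, ?_⟩
    have : (x⁻¹ * y)⁻¹ = y⁻¹ * x := by group
    rw [this]
    exact rel_symm_good64 ht hn hx hy h
  have hy' : y = x * (x⁻¹ * y) := by group
  rw [hy', hχ.mul x (x⁻¹ * y) hx.tor hκ.1, hchar _ hκ, mul_one]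

/-- **Independence of the pair.** -/
theorem pair_indep64 {χT : A0.G K → ℂ} (hχ : IsTorusChar t n χT)
    (ht : Valued.v (algebraMap K (v.adicCompletion K) t) ≤ 1)
    (hn : Valued.v (algebraMap K (v.adicCompletion K) n) ≤ 1)
    (hchar : ∀ κ : A0.G K, WL.InTorusIntAt t n v κ → χT κ = 1)
    {m₁ m₂ m₁' m₂' : A0.G K} (h1 : Good64 t n v m₁) (h2 : Good64 t n v m₂)
    (h1' : Good64 t n v m₁') (h2' : Good64 t n v m₂')
    (hne : ¬ A0.IsIntegralAt v (m₁⁻¹ * m₂)) (hne' : ¬ A0.IsIntegralAt v (m₁'⁻¹ * m₂')) :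
    χT m₁ + χT m₂ = χT m₁' + χT m₂' ∧ χT m₁ * χT m₂ = χT m₁' * χT m₂' := by
  -- each of `m₁'`, `m₂'` is equivalent to `m₁` or to `m₂`
  have key : ∀ {z : A0.G K}, Good64 t n v z →
      A0.IsIntegralAt v (m₁⁻¹ * z) ∨ A0.IsIntegralAt v (m₂⁻¹ * z) := by
    intro z hz
    by_contra hcon
    push Not at hcon
    have ha : ¬ A0.IsIntegralAt v (z⁻¹ * m₁) := fun h =>
      hcon.1 (rel_symm_good64 ht hn hz h1 h)
    have hb : ¬ A0.IsIntegralAt v (z⁻¹ * m₂) := fun h =>
      hcon.2 (rel_symm_good64 ht hn hz h2 h)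
    exact hne (rel_three64 ht hn hz h1 h2 ha hb)
  rcases key h1' with ha | ha <;> rcases key h2' with hb | hb
  · -- both equivalent to `m₁`: then `m₁' ~ m₂'`
    exact absurd (rel_trans64 (rel_symm_good64 ht hn h1 h1' ha) hb) hne'
  · have e1 := chi_eq_of_rel64 hχ ht hn hchar h1 h1' ha
    have e2 := chi_eq_of_rel64 hχ ht hn hchar h2 h2' hb
    rw [e1, e2]
    exact ⟨rfl, rfl⟩
  · have e1 := chi_eq_of_rel64 hχ ht hn hchar h2 h1' ha
    have e2 := chi_eq_of_rel64 hχ ht hn hchar h1 h2' hb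
    rw [e1, e2]
    exact ⟨add_comm _ _, mul_comm _ _⟩
  · exact absurd (rel_trans64 (rel_symm_good64 ht hn h2 h1' ha) hb) hne'

end Classes

/-! ## 3. Scalar uniformisers -/

section Scalar

variable {t n : K} {v : HeightOneSpectrum (𝓞 K)}

/-- An element supported at `v` which is scalar at `v` lies in the torus. -/
theorem inTorus_of_scalar64 (t n : K) {z : A0.G K} (hloc : A0.IsLocalAtFin v z)
    {c : v.adicCompletion K} (hc : A0.finComp v z = Matrix.diagonal (fun _ => c)) :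
    InTorus t n z := by
  refine ⟨(z : Matrix (Fin 2) (Fin 2) (A0.Adl K)) 0 0, 0, ?_⟩
  have hentry : ∀ i j : Fin 2, (z : Matrix (Fin 2) (Fin 2) (A0.Adl K)) i j
      = if i = j then (z : Matrix (Fin 2) (Fin 2) (A0.Adl K)) 0 0 else 0 := by
    intro i j
    refine adl_ext64 (fun w => ?_) (fun v' => ?_)
    · have h00 := hloc.1 w 0 0
      have hij := hloc.1 w i j
      by_cases hij' : i = j
      · subst hij'
        rw [if_pos rfl, hij, h00]
        simp
      · rw [if_neg hij', hij]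
        simp only [Matrix.one_apply_ne hij']
        rfl
    · by_cases hv : v' = v
      · subst hv
        have e1 : ((z : Matrix (Fin 2) (Fin 2) (A0.Adl K)) i j).2 v' = A0.finComp v' z i j := rfl
        have e2 : ((z : Matrix (Fin 2) (Fin 2) (A0.Adl K)) 0 0).2 v' = A0.finComp v' z 0 0 := rfl
        by_cases hij' : i = j
        · subst hij'
          rw [if_pos rfl, e1, e2, hc]
          simp
        · rw [if_neg hij', e1, hc, Matrix.diagonal_apply_ne _ hij']
          rfl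
      · have hT : A0.finComp v' z = 1 := hloc.2 v' hv
        have e1 : ((z : Matrix (Fin 2) (Fin 2) (A0.Adl K)) i j).2 v' = A0.finComp v' z i j := rfl
        have e2 : ((z : Matrix (Fin 2) (Fin 2) (A0.Adl K)) 0 0).2 v' = A0.finComp v' z 0 0 := rfl
        by_cases hij' : i = j
        · subst hij'
          rw [if_pos rfl, e1, e2, hT]
          simp
        · rw [if_neg hij', e1, hT, Matrix.one_apply_ne hij']
          rfl
  ext i j
  rw [hentry i j]
  fin_cases i <;> fin_cases j <;> simp [torMat]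

/-- Two scalar uniformisers at a good place have the same value of `χT`. -/
theorem chi_scalar_eq64 {χT : A0.G K → ℂ} (hχ : IsTorusChar t n χT)
    (hchar : ∀ κ : A0.G K, WL.InTorusIntAt t n v κ → χT κ = 1)
    {z₀ z : A0.G K} (h0 : A0.IsScalarUniformizerAt v z₀) (h : A0.IsScalarUniformizerAt v z) :
    χT z = χT z₀ := by
  obtain ⟨hloc0, c0, hc0, hz0⟩ := h0
  obtain ⟨hloc, c, hc, hz⟩ := h
  have hc0ne : c0 ≠ 0 := by
    intro h0
    rw [h0, map_zero] at hc0
    exact WithZero.exp_ne_zero hc0.symm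
  have hcne : c ≠ 0 := by
    intro h0
    rw [h0, map_zero] at hc
    exact WithZero.exp_ne_zero hc.symm
  have hT0 : InTorus t n z₀ := inTorus_of_scalar64 t n hloc0 hz0
  have hT : InTorus t n z := inTorus_of_scalar64 t n hloc hz
  have hdiag : ∀ (x y : v.adicCompletion K), x ≠ 0 →
      (Matrix.diagonal (fun _ : Fin 2 => x))⁻¹ * Matrix.diagonal (fun _ : Fin 2 => y)
        = Matrix.diagonal (fun _ : Fin 2 => x⁻¹ * y) := by
    intro x y hx
    have hdet : IsUnit (Matrix.diagonal (fun _ : Fin 2 => x)).det := by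
      rw [Matrix.det_diagonal]
      simp [hx]
    have : Matrix.diagonal (fun _ : Fin 2 => y)
        = Matrix.diagonal (fun _ : Fin 2 => x) * Matrix.diagonal (fun _ : Fin 2 => x⁻¹ * y) := by
      rw [Matrix.diagonal_mul_diagonal]
      congr 1
      funext _
      rw [mul_inv_cancel_left₀ hx]
    conv_lhs => rw [this]
    rw [← Matrix.mul_assoc, Matrix.nonsing_inv_mul _ hdet, Matrix.one_mul]
  have hint : ∀ (x y : v.adicCompletion K), Valued.v x = WithZero.exp (-1 : ℤ) →
      Valued.v y = WithZero.exp (-1 : ℤ) →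
      IntM64 (Valued.v : Valuation (v.adicCompletion K) ℤᵐ⁰)
        (Matrix.diagonal (fun _ : Fin 2 => x⁻¹ * y)) := by
    intro x y hx hy i j
    by_cases hij : i = j
    · subst hij
      rw [Matrix.diagonal_apply_eq, map_mul, map_inv₀, hx, hy]
      rw [inv_mul_cancel₀ WithZero.exp_ne_zero]
    · rw [Matrix.diagonal_apply_ne _ hij, map_zero]
      exact zero_le
  have hκ : WL.InTorusIntAt t n v (z₀⁻¹ * z) := by
    refine ⟨inTorus_mul64 (inTorus_inv64 hT0) hT,
      isLocalAtFin_mul64 (isLocalAtFin_inv64 hloc0) hloc, ?_, ?_⟩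
    · rw [rel_iff_local64, hz0, hz, hdiag c0 c hc0ne]
      exact hint c0 c hc0 hc
    · have : (z₀⁻¹ * z)⁻¹ = z⁻¹ * z₀ := by group
      rw [this, rel_iff_local64, hz0, hz, hdiag c c0 hcne]
      exact hint c c0 hc hc0
  have hz' : z = z₀ * (z₀⁻¹ * z) := by group
  rw [hz', hχ.mul z₀ (z₀⁻¹ * z) hT0 hκ.1, hchar _ hκ, mul_one]

end Scalar

/-! ## 4. The eigensystem -/

section Main

variable (t n : K) (χT : A0.G K → ℂ)

/-- A pair as in the first half of `InducedAtT`. -/
def IsPair64 (v : HeightOneSpectrum (𝓞 K)) (p : A0.G K × A0.G K) : Prop :=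
  Good64 t n v p.1 ∧ Good64 t n v p.2 ∧ ¬ A0.IsIntegralAt v (p.1⁻¹ * p.2)

open Classical in
/-- The `T_v`-eigenvalue of the induced data. -/
def aInd64 (v : HeightOneSpectrum (𝓞 K)) : ℂ :=
  if h : ∃ p : A0.G K × A0.G K, IsPair64 t n v p then
    χT (Classical.choose h).1 + χT (Classical.choose h).2
  else 0

open Classical in
/-- The `S_v`-eigenvalue of the induced data. -/
def bInd64 (v : HeightOneSpectrum (𝓞 K)) : ℂ :=
  if h : ∃ p : A0.G K × A0.G K, IsPair64 t n v p then
    χT (Classical.choose h).1 * χT (Classical.choose h).2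
  else if h' : ∃ z : A0.G K, A0.IsScalarUniformizerAt v z then
    - χT (Classical.choose h')
  else 0

/-- The eigensystem of the induced data, of level `𝔫`. -/
def piInd64 (𝔫 : Ideal (𝓞 K)) (h𝔫 : 𝔫 ≠ ⊥) : HeckeEigensystem K ℂ where
  level := 𝔫
  level_ne_bot := h𝔫
  a := aInd64 t n χT
  b := bInd64 t n χT

variable {t n χT}

theorem inducedAtT64 (hχ : IsTorusChar t n χT) {v : HeightOneSpectrum (𝓞 K)}
    (ht : Valued.v (algebraMap K (v.adicCompletion K) t) ≤ 1)
    (hn : Valued.v (algebraMap K (v.adicCompletion K) n) ≤ 1)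
    (hchar : ∀ κ : A0.G K, WL.InTorusIntAt t n v κ → χT κ = 1) :
    InducedAtT t n χT v (aInd64 t n χT v) (bInd64 t n χT v) := by
  constructor
  · intro m₁ m₂ hT1 hT2 hl1 hl2 hi1 hi2 hd1 hd2 hne
    have hp : IsPair64 t n v (m₁, m₂) := ⟨⟨hT1, hl1, hi1, hd1⟩, ⟨hT2, hl2, hi2, hd2⟩, hne⟩
    have hex : ∃ p : A0.G K × A0.G K, IsPair64 t n v p := ⟨_, hp⟩
    have hsp := Classical.choose_spec hex
    have hind := pair_indep64 hχ ht hn hchar hsp.1 hsp.2.1 hp.1 hp.2.1 hsp.2.2 hp.2.2
    unfold aInd64 bInd64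
    rw [dif_pos hex, dif_pos hex]
    exact hind
  · intro hinert z hz
    have hno : ¬ ∃ p : A0.G K × A0.G K, IsPair64 t n v p := by
      rintro ⟨p, hp⟩
      exact hinert p.1 hp.1.tor hp.1.loc hp.1.int hp.1.det
    have hex : ∃ z : A0.G K, A0.IsScalarUniformizerAt v z := ⟨z, hz⟩
    unfold aInd64 bInd64
    rw [dif_neg hno, dif_neg hno, dif_pos hex]
    refine ⟨rfl, ?_⟩
    rw [chi_scalar_eq64 hχ hchar (Classical.choose_spec hex) hz]

/-- **Leaf A2.03.1.1.05 `WX467.InducedC`.** -/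
theorem inducedC64 : WX467.InducedC := by
  intro K _ _ t n χT ψ hχ 𝔫 h𝔫 hgood
  refine ⟨piInd64 t n χT 𝔫 h𝔫, rfl, ?_⟩
  intro v hv
  have hg := hgood v hv
  exact inducedAtT64 hχ hg.good_int.1 hg.good_int.2.1 hg.good_char

end Main

end Fermat.Agent.LT.A2.H64

end
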