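import Mathlib
import Fermat.Agent.LT.A2.Kernel

/-!
# Row LT, tower A2, leaf A2.03.1.1.05 `WX467.InducedC` -- part 1 (helper64)

OFF-MAIN.  LOCAL ALGEBRA of the torus `T = {a + b ω}`, `ω² - t ω + n = 0`, over a field `F` with a
valuation `val : Valuation F ℤᵐ⁰`, in the coordinates of `A2.torMat`.

No Hensel, no discriminant: for INTEGRAL `α = a + b ω`, `β`, `γ` whose norms have valuation
`exp (-1)`,

* `α⁻¹ β` is integral iff the coordinates of `β ᾱ` have valuation `≤ exp (-1)` (`rel_iff64`);
* `β ᾱ ≡ 0` or `α β ≡ 0` modulo the maximal ideal (`dichotomy64`; from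
  `(d a - c b)(a d + b c + t b d) = d² N(α) - b² N(β)`);
* at most two classes: if `α⁻¹ β` and `α⁻¹ γ` are not integral then `β⁻¹ γ` is integral
  (`three64`; from `(γ β̄) N(α) = (α γ) · conj (α β)`).

Mathlib + the definition of `torMat` only.
-/

set_option autoImplicit false

open scoped WithZero

noncomputable section

namespace Fermat.Agent.LT.A2.H64

open Fermat.Agent.LT.A2

/-! ## 0. Values in `ℤᵐ⁰` -/

theorem lt_one_iff64 (x : ℤᵐ⁰) : x < 1 ↔ x ≤ WithZero.exp (-1 : ℤ) := by
  have h := WithZero.lt_mul_exp_iff_le (x := x) (y := WithZero.exp (-1 : ℤ)) WithZero.exp_ne_zero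
  rw [← WithZero.exp_add] at h
  simpa using h

theorem exp_neg_one_lt_one64 : WithZero.exp (-1 : ℤ) < (1 : ℤᵐ⁰) :=
  (lt_one_iff64 _).2 le_rfl

theorem exp_neg_one_le_one64 : WithZero.exp (-1 : ℤ) ≤ (1 : ℤᵐ⁰) :=
  exp_neg_one_lt_one64.le

section Local

variable {F : Type*} [Field F] (val : Valuation F ℤᵐ⁰)

/-- `val (x + y) ≤ c` if both are. -/
theorem val_add_le64 {x y : F} {c : ℤᵐ⁰} (hx : val x ≤ c) (hy : val y ≤ c) :
    val (x + y) ≤ c :=
  (val.map_add x y).trans (max_le hx hy)

theorem val_sub_le64 {x y : F} {c : ℤᵐ⁰} (hx : val x ≤ c) (hy : val y ≤ c) :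
    val (x - y) ≤ c :=
  (val.map_sub x y).trans (max_le hx hy)

/-- `val (x * y) ≤ c` if `val x ≤ 1` and `val y ≤ c`. -/
theorem val_mul_le_right64 {x y : F} {c : ℤᵐ⁰} (hx : val x ≤ 1) (hy : val y ≤ c) :
    val (x * y) ≤ c := by
  rw [val.map_mul]
  calc val x * val y ≤ 1 * c := mul_le_mul' hx hy
    _ = c := one_mul c

theorem val_mul_le_left64 {x y : F} {c : ℤᵐ⁰} (hx : val x ≤ c) (hy : val y ≤ 1) :
    val (x * y) ≤ c := by
  rw [mul_comm]
  exact val_mul_le_right64 val hy hx

/-- In a discretely valued field, a product of integers in the maximal ideal has a factor in the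
maximal ideal. -/
theorem val_mul_le_exp64 {p q : F} (hp : val p ≤ 1) (hq : val q ≤ 1)
    (h : val (p * q) ≤ WithZero.exp (-1 : ℤ)) :
    val p ≤ WithZero.exp (-1 : ℤ) ∨ val q ≤ WithZero.exp (-1 : ℤ) := by
  by_contra hcon
  push Not at hcon
  obtain ⟨h1, h2⟩ := hcon
  have hp1 : val p = 1 := le_antisymm hp (not_lt.1 (fun hlt => absurd ((lt_one_iff64 _).1 hlt) (not_le.2 h1)))
  have hq1 : val q = 1 := le_antisymm hq (not_lt.1 (fun hlt => absurd ((lt_one_iff64 _).1 hlt) (not_le.2 h2)))
  rw [val.map_mul, hp1, hq1, one_mul] at h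
  exact absurd h (not_le.2 exp_neg_one_lt_one64)

/-- If `x` is integral, `x² + y` and `y` are in the maximal ideal, so is `x`. -/
theorem val_le_exp_of_sq64 {x y : F} (hx : val x ≤ 1)
    (h : val (x ^ 2 + y) ≤ WithZero.exp (-1 : ℤ)) (hy : val y ≤ WithZero.exp (-1 : ℤ)) :
    val x ≤ WithZero.exp (-1 : ℤ) := by
  have h2 : val (x * x) ≤ WithZero.exp (-1 : ℤ) := by
    have : x * x = (x ^ 2 + y) - y := by ring
    rw [this]
    exact val_sub_le64 val h hy
  rcases val_mul_le_exp64 val hx hx h2 with h3 | h3 <;> exact h3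

/-- The norm form `N(a + b ω) = a² + t a b + n b²`. -/
def nm64 (t n a b : F) : F := a ^ 2 + t * a * b + n * b ^ 2

omit val in
theorem det_torMat64 (t n a b : F) : (torMat t n a b).det = nm64 t n a b := by
  simp only [torMat, Matrix.det_fin_two_of, nm64]
  ring

omit val in
theorem torMat_mul64 {R : Type*} [CommRing R] (t n a b c d : R) :
    torMat t n a b * torMat t n c d
      = torMat t n (a * c - n * (b * d)) (a * d + b * c + t * (b * d)) := by
  ext i j
  fin_cases i <;> fin_cases j <;>
    simp [torMat, Matrix.mul_apply, Fin.sum_univ_two] <;> ring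

omit val in
theorem torMat_one64 {R : Type*} [CommRing R] (t n : R) : torMat t n 1 0 = 1 := by
  ext i j
  fin_cases i <;> fin_cases j <;> simp [torMat]

omit val in
/-- `α⁻¹ β = β ᾱ / N(α)` in coordinates. -/
theorem torMat_inv_mul64 (t n a b c d : F) (hN : nm64 t n a b ≠ 0) :
    (torMat t n a b)⁻¹ * torMat t n c d
      = torMat t n ((c * a + t * c * b + n * d * b) / nm64 t n a b)
          ((d * a - c * b) / nm64 t n a b) := by
  have hdet : IsUnit (torMat t n a b).det := by
    rw [det_torMat64]; exact isUnit_iff_ne_zero.2 hN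
  have hprod : torMat t n c d
      = torMat t n a b * torMat t n ((c * a + t * c * b + n * d * b) / nm64 t n a b)
          ((d * a - c * b) / nm64 t n a b) := by
    rw [torMat_mul64]
    have h1 : a * ((c * a + t * c * b + n * d * b) / nm64 t n a b)
        - n * (b * ((d * a - c * b) / nm64 t n a b)) = c := by
      field_simp
      simp only [nm64]
      ring
    have h2 : a * ((d * a - c * b) / nm64 t n a b)
        + b * ((c * a + t * c * b + n * d * b) / nm64 t n a b)
        + t * (b * ((d * a - c * b) / nm64 t n a b)) = d := by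
      field_simp
      simp only [nm64]
      ring
    rw [h1, h2]
  conv_lhs => rw [hprod]
  rw [← Matrix.mul_assoc, Matrix.nonsing_inv_mul _ hdet, Matrix.one_mul]

/-- A matrix with integral entries. -/
def IntM64 (M : Matrix (Fin 2) (Fin 2) F) : Prop := ∀ i j, val (M i j) ≤ 1

theorem intM_mul64 {M N : Matrix (Fin 2) (Fin 2) F} (hM : IntM64 val M) (hN : IntM64 val N) :
    IntM64 val (M * N) := by
  intro i j
  rw [Matrix.mul_apply, Fin.sum_univ_two]
  exact val_add_le64 val (val_mul_le_right64 val (hM i 0) (hN 0 j))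
    (val_mul_le_right64 val (hM i 1) (hN 1 j))

theorem intM_torMat_iff64 {t n : F} (ht : val t ≤ 1) (hn : val n ≤ 1) (x y : F) :
    IntM64 val (torMat t n x y) ↔ val x ≤ 1 ∧ val y ≤ 1 := by
  constructor
  · intro h
    refine ⟨?_, ?_⟩
    · simpa [torMat] using h 0 0
    · simpa [torMat] using h 1 0
  · rintro ⟨hx, hy⟩ i j
    fin_cases i <;> fin_cases j
    · simpa [torMat] using hx
    · have : val (-(n * y)) ≤ 1 := by
        rw [Valuation.map_neg]; exact val_mul_le_right64 val hn hy
      simpa [torMat] using this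
    · simpa [torMat] using hy
    · have : val (x + t * y) ≤ 1 := val_add_le64 val hx (val_mul_le_right64 val ht hy)
      simpa [torMat] using this

/-- `val (x / N) ≤ 1 ↔ val x ≤ exp (-1)` when `val N = exp (-1)`. -/
theorem val_div_le_one_iff64 {x N : F} (hN : val N = WithZero.exp (-1 : ℤ)) :
    val (x / N) ≤ 1 ↔ val x ≤ WithZero.exp (-1 : ℤ) := by
  have hN0 : val N ≠ 0 := by rw [hN]; exact WithZero.exp_ne_zero
  rw [map_div₀, div_le_iff₀ (zero_lt_iff.2 hN0), one_mul, hN]

/-- **The relation in coordinates.** -/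
theorem rel_iff64 {t n a b c d : F} (ht : val t ≤ 1) (hn : val n ≤ 1)
    (hN : val (nm64 t n a b) = WithZero.exp (-1 : ℤ)) :
    IntM64 val ((torMat t n a b)⁻¹ * torMat t n c d) ↔
      val (c * a + t * c * b + n * d * b) ≤ WithZero.exp (-1 : ℤ) ∧
        val (d * a - c * b) ≤ WithZero.exp (-1 : ℤ) := by
  have hN0 : nm64 t n a b ≠ 0 := by
    intro h0
    rw [h0, map_zero] at hN
    exact WithZero.exp_ne_zero hN.symm
  rw [torMat_inv_mul64 t n a b c d hN0, intM_torMat_iff64 val ht hn,
    val_div_le_one_iff64 val hN, val_div_le_one_iff64 val hN]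

/-- **Dichotomy.**  For integral `α`, `β` with norms in the maximal ideal: `β ᾱ ≡ 0` or
`α β ≡ 0`. -/
theorem dichotomy64 {t n a b c d : F} (ht : val t ≤ 1) (hn : val n ≤ 1)
    (ha : val a ≤ 1) (hb : val b ≤ 1) (hc : val c ≤ 1) (hd : val d ≤ 1)
    (hN : val (nm64 t n a b) ≤ WithZero.exp (-1 : ℤ))
    (hN' : val (nm64 t n c d) ≤ WithZero.exp (-1 : ℤ)) :
    (val (c * a + t * c * b + n * d * b) ≤ WithZero.exp (-1 : ℤ) ∧
        val (d * a - c * b) ≤ WithZero.exp (-1 : ℤ)) ∨
      (val (a * c - n * (b * d)) ≤ WithZero.exp (-1 : ℤ) ∧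
        val (a * d + b * c + t * (b * d)) ≤ WithZero.exp (-1 : ℤ)) := by
  -- integrality of the four coordinates
  have hP1 : val (d * a - c * b) ≤ 1 :=
    val_sub_le64 val (val_mul_le_right64 val hd ha) (val_mul_le_right64 val hc hb)
  have hQ1 : val (a * d + b * c + t * (b * d)) ≤ 1 :=
    val_add_le64 val (val_add_le64 val (val_mul_le_right64 val ha hd)
      (val_mul_le_right64 val hb hc))
      (val_mul_le_right64 val ht (val_mul_le_right64 val hb hd))
  have hR1 : val (c * a + t * c * b + n * d * b) ≤ 1 :=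
    val_add_le64 val (val_add_le64 val (val_mul_le_right64 val hc ha)
      (val_mul_le_right64 val (val_mul_le_right64 val ht hc) hb))
      (val_mul_le_right64 val (val_mul_le_right64 val hn hd) hb)
  have hR'1 : val (a * c - n * (b * d)) ≤ 1 :=
    val_sub_le64 val (val_mul_le_right64 val ha hc)
      (val_mul_le_right64 val hn (val_mul_le_right64 val hb hd))
  -- the product of the `ω`-coordinates
  have hPQ : val ((d * a - c * b) * (a * d + b * c + t * (b * d))) ≤ WithZero.exp (-1 : ℤ) := by
    have : (d * a - c * b) * (a * d + b * c + t * (b * d))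
        = d ^ 2 * nm64 t n a b - b ^ 2 * nm64 t n c d := by
      simp only [nm64]; ring
    rw [this]
    refine val_sub_le64 val (val_mul_le_right64 val ?_ hN) (val_mul_le_right64 val ?_ hN')
    · rw [map_pow]; exact pow_le_one₀ zero_le hd
    · rw [map_pow]; exact pow_le_one₀ zero_le hb
  have hNN : val (nm64 t n a b * nm64 t n c d) ≤ WithZero.exp (-1 : ℤ) :=
    val_mul_le_left64 val hN (hN'.trans exp_neg_one_le_one64)
  rcases val_mul_le_exp64 val hP1 hQ1 hPQ with hP | hQ
  · left
    refine ⟨?_, hP⟩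
    refine val_le_exp_of_sq64 val hR1 (y := t * (c * a + t * c * b + n * d * b) * (d * a - c * b)
      + n * (d * a - c * b) ^ 2) ?_ ?_
    · have : (c * a + t * c * b + n * d * b) ^ 2
          + (t * (c * a + t * c * b + n * d * b) * (d * a - c * b) + n * (d * a - c * b) ^ 2)
          = nm64 t n a b * nm64 t n c d := by
        simp only [nm64]; ring
      rw [this]; exact hNN
    · refine val_add_le64 val (val_mul_le_right64 val (val_mul_le_right64 val ht hR1) hP) ?_
      rw [pow_two]
      exact val_mul_le_right64 val hn (val_mul_le_right64 val hP1 hP)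
  · right
    refine ⟨?_, hQ⟩
    refine val_le_exp_of_sq64 val hR'1 (y := t * (a * c - n * (b * d))
      * (a * d + b * c + t * (b * d)) + n * (a * d + b * c + t * (b * d)) ^ 2) ?_ ?_
    · have : (a * c - n * (b * d)) ^ 2
          + (t * (a * c - n * (b * d)) * (a * d + b * c + t * (b * d))
            + n * (a * d + b * c + t * (b * d)) ^ 2)
          = nm64 t n a b * nm64 t n c d := by
        simp only [nm64]; ring
      rw [this]; exact hNN
    · refine val_add_le64 val (val_mul_le_right64 val (val_mul_le_right64 val ht hR'1) hQ) ?_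
      rw [pow_two]
      exact val_mul_le_right64 val hn (val_mul_le_right64 val hQ1 hQ)

/-- If `val (x * N) ≤ exp (-1) * exp (-1)` and `val N = exp (-1)` then `val x ≤ exp (-1)`. -/
theorem val_le_of_mul64 {x N : F} (hN : val N = WithZero.exp (-1 : ℤ))
    (h : val (x * N) ≤ WithZero.exp (-1 : ℤ) * WithZero.exp (-1 : ℤ)) :
    val x ≤ WithZero.exp (-1 : ℤ) := by
  rw [val.map_mul, hN] at h
  exact le_of_mul_le_mul_right h (zero_lt_iff.2 WithZero.exp_ne_zero)

/-- **At most two classes.**  Integral `α`, `β`, `γ` with norms of valuation `exp (-1)`: if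
`α⁻¹ β` and `α⁻¹ γ` are not integral then `β⁻¹ γ` is integral. -/
theorem three64 {t n a b c d e f : F} (ht : val t ≤ 1) (hn : val n ≤ 1)
    (ha : val a ≤ 1) (hb : val b ≤ 1) (hc : val c ≤ 1) (hd : val d ≤ 1)
    (he : val e ≤ 1) (hf : val f ≤ 1)
    (hN : val (nm64 t n a b) = WithZero.exp (-1 : ℤ))
    (hN' : val (nm64 t n c d) = WithZero.exp (-1 : ℤ))
    (hN'' : val (nm64 t n e f) = WithZero.exp (-1 : ℤ))
    (h1 : ¬ IntM64 val ((torMat t n a b)⁻¹ * torMat t n c d))
    (h2 : ¬ IntM64 val ((torMat t n a b)⁻¹ * torMat t n e f)) :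
    IntM64 val ((torMat t n c d)⁻¹ * torMat t n e f) := by
  rw [rel_iff64 val ht hn hN] at h1 h2
  rw [rel_iff64 val ht hn hN']
  -- `α β ≡ 0` and `α γ ≡ 0`
  obtain ⟨hu0, hu1⟩ : val (a * c - n * (b * d)) ≤ WithZero.exp (-1 : ℤ) ∧
      val (a * d + b * c + t * (b * d)) ≤ WithZero.exp (-1 : ℤ) := by
    rcases dichotomy64 val ht hn ha hb hc hd hN.le hN'.le with h | h
    · exact absurd h h1
    · exact h
  obtain ⟨hv0, hv1⟩ : val (a * e - n * (b * f)) ≤ WithZero.exp (-1 : ℤ) ∧
      val (a * f + b * e + t * (b * f)) ≤ WithZero.exp (-1 : ℤ) := by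
    rcases dichotomy64 val ht hn ha hb he hf hN.le hN''.le with h | h
    · exact absurd h h2
    · exact h
  have hmm : ∀ {x y : F}, val x ≤ WithZero.exp (-1 : ℤ) → val y ≤ WithZero.exp (-1 : ℤ) →
      val (x * y) ≤ WithZero.exp (-1 : ℤ) * WithZero.exp (-1 : ℤ) := by
    intro x y hx hy
    rw [val.map_mul]
    exact mul_le_mul' hx hy
  have hee : WithZero.exp (-1 : ℤ) * WithZero.exp (-1 : ℤ) ≤ (1 : ℤᵐ⁰) * WithZero.exp (-1 : ℤ) * WithZero.exp (-1 : ℤ) := by
    rw [one_mul]
  constructor
  · -- constant coordinate of `γ β̄`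
    apply val_le_of_mul64 val hN
    have : (e * c + t * e * d + n * f * d) * nm64 t n a b
        = (a * e - n * (b * f)) * (a * c - n * (b * d))
          + t * ((a * e - n * (b * f)) * (a * d + b * c + t * (b * d)))
          + n * ((a * f + b * e + t * (b * f)) * (a * d + b * c + t * (b * d))) := by
      simp only [nm64]; ring
    rw [this]
    exact val_add_le64 val (val_add_le64 val (hmm hv0 hu0)
      (val_mul_le_right64 val ht (hmm hv0 hu1)))
      (val_mul_le_right64 val hn (hmm hv1 hu1))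
  · -- `ω`-coordinate of `γ β̄`
    apply val_le_of_mul64 val hN
    have : (f * c - e * d) * nm64 t n a b
        = (a * f + b * e + t * (b * f)) * (a * c - n * (b * d))
          - (a * e - n * (b * f)) * (a * d + b * c + t * (b * d)) := by
      simp only [nm64]; ring
    rw [this]
    exact val_sub_le64 val (hmm hv1 hu0) (hmm hv0 hu1)

/-- **Symmetry.** -/
theorem rel_symm64 {t n a b c d : F} (ht : val t ≤ 1) (hn : val n ≤ 1)
    (hN : val (nm64 t n a b) = WithZero.exp (-1 : ℤ))
    (hN' : val (nm64 t n c d) = WithZero.exp (-1 : ℤ))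
    (h : IntM64 val ((torMat t n a b)⁻¹ * torMat t n c d)) :
    IntM64 val ((torMat t n c d)⁻¹ * torMat t n a b) := by
  rw [rel_iff64 val ht hn hN] at h
  rw [rel_iff64 val ht hn hN']
  obtain ⟨hR, hP⟩ := h
  constructor
  · have : a * c + t * a * d + n * b * d
        = (c * a + t * c * b + n * d * b) + t * (d * a - c * b) := by ring
    rw [this]
    exact val_add_le64 val hR (val_mul_le_right64 val ht hP)
  · have : b * c - a * d = -(d * a - c * b) := by ring
    rw [this, Valuation.map_neg]; exact hP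

end Local

end Fermat.Agent.LT.A2.H64

end
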